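/-
Program B' (S34), helper34: the abstract core of the CONCRETE node supply (M6b (i)).

At a crossing point `n ⊇ P1 + P2` of the level-`qM'` chart, the two Kronecker congruences

  `β g ≡ α (σ⁻¹ g) ^ q` modulo `P1`,      `α f ≡ β (σ⁻¹ f) ^ q` modulo `P2`

(`α`, `β` the two degeneracy maps from the level-`M'` chart `S₀`, `σ` the Frobenius twist of the
chart) force:

* `CrossKron.sq_stable` : the closed point of the level-`M'` chart below `n` is stable under
  `σ ^ 2` (it is "`𝔽_{q²}`-rational");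
* for a local parameter `θ'` (`m_S = (q, θ')`), the elements
  `crossθ = θ' - (σ⁻² θ') ^ (q ^ 2)` and `crossX = β (σ⁻¹ θ') - α (σ⁻² θ') ^ q` satisfy the fields
  `max_S`, `x_mem1`, `x_pow`, `x_not_mem2` of helper36's `PreNode` / helper46's `NodeHyp`;
* `CrossKron.nodeHyp` : with the remaining (model-side) fields of `PreNode`, the dichotomy gives
  `NodeHyp` at the crossing point: `R` is local and the monogenic node package applies.

Mathlib + the definitions `H46.NodeHyp`, `H36.PreNode` and `H36.PreNode.dichotomy`.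
-/
import Fermat.Agent.S34.H36.Dichotomy

set_option autoImplicit false
set_option linter.unusedSectionVars false
set_option linter.style.haveILetI false

namespace Fermat.Agent.S34.H34

open Ideal IsLocalRing Polynomial

section Defs

variable (q : ℕ) {S₀ S R : Type*} [CommRing S₀] [CommRing S] [CommRing R] [Algebra S R]
  [IsLocalRing S]

/-- The Kronecker data at a crossing point `n` of the two components `P1`, `P2`. -/
structure CrossKron (a₀ : S₀ →+* S) (β : S₀ →+* R) (σ : S₀ ≃+* S₀) (P1 P2 n : Ideal R) :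
    Prop where
  /-- `q` is a prime number. -/
  hq : q.Prime
  /-- the crossing point is a prime ideal. -/
  prime_n : n.IsPrime
  /-- the crossing point lies on the first component. -/
  le1 : P1 ≤ n
  /-- the crossing point lies on the second component. -/
  le2 : P2 ≤ n
  /-- `q` vanishes on the second component. -/
  q_mem2 : (q : R) ∈ P2
  /-- the crossing point lies over the closed point of `S`. -/
  comap_n : ∀ s : S, algebraMap S R s ∈ n ↔ s ∈ maximalIdeal S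
  /-- Kronecker on the first component: `β g ≡ α (σ⁻¹ g) ^ q`. -/
  kron1 : ∀ g : S₀, β g - algebraMap S R (a₀ (σ.symm g)) ^ q ∈ P1
  /-- Kronecker on the second component: `α f ≡ β (σ⁻¹ f) ^ q`. -/
  kron2 : ∀ f : S₀, algebraMap S R (a₀ f) - β (σ.symm f) ^ q ∈ P2

/-- The local parameter of the node package: `θ = θ' - (σ⁻² θ') ^ (q ^ 2)`. -/
def crossθ (a₀ : S₀ →+* S) (σ : S₀ ≃+* S₀) (θ' : S₀) : S :=
  a₀ θ' - a₀ (σ.symm (σ.symm θ')) ^ (q ^ 2)

/-- The generator of the node package: `x = β (σ⁻¹ θ') - α (σ⁻² θ') ^ q`. -/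
def crossX (a₀ : S₀ →+* S) (β : S₀ →+* R) (σ : S₀ ≃+* S₀) (θ' : S₀) : R :=
  β (σ.symm θ') - algebraMap S R (a₀ (σ.symm (σ.symm θ'))) ^ q

end Defs

section Basic

variable {q : ℕ} {S₀ S R : Type*} [CommRing S₀] [CommRing S] [CommRing R] [Algebra S R]
  [IsLocalRing S] {a₀ : S₀ →+* S} {β : S₀ →+* R} {σ : S₀ ≃+* S₀} {P1 P2 n : Ideal R}

/-- `α f ∈ n ↔ β (σ⁻¹ f) ∈ n`. -/
theorem CrossKron.alpha_mem_iff (h : CrossKron q a₀ β σ P1 P2 n) (f : S₀) :
    algebraMap S R (a₀ f) ∈ n ↔ β (σ.symm f) ∈ n := by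
  haveI := h.prime_n
  have h2 : algebraMap S R (a₀ f) - β (σ.symm f) ^ q ∈ n := h.le2 (h.kron2 f)
  constructor
  · intro hf
    have h3 : β (σ.symm f) ^ q ∈ n := by
      have := n.sub_mem hf h2
      rwa [sub_sub_cancel] at this
    exact h.prime_n.mem_of_pow_mem q h3
  · intro hf
    have h3 : β (σ.symm f) ^ q ∈ n := n.pow_mem_of_mem hf q h.hq.pos
    have := n.add_mem h2 h3
    rwa [sub_add_cancel] at this

/-- `β g ∈ n ↔ α (σ⁻¹ g) ∈ n`. -/
theorem CrossKron.beta_mem_iff (h : CrossKron q a₀ β σ P1 P2 n) (g : S₀) :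
    β g ∈ n ↔ algebraMap S R (a₀ (σ.symm g)) ∈ n := by
  haveI := h.prime_n
  have h1 : β g - algebraMap S R (a₀ (σ.symm g)) ^ q ∈ n := h.le1 (h.kron1 g)
  constructor
  · intro hg
    have h3 : algebraMap S R (a₀ (σ.symm g)) ^ q ∈ n := by
      have := n.sub_mem hg h1
      rwa [sub_sub_cancel] at this
    exact h.prime_n.mem_of_pow_mem q h3
  · intro hg
    have h3 : algebraMap S R (a₀ (σ.symm g)) ^ q ∈ n := n.pow_mem_of_mem hg q h.hq.pos
    have := n.add_mem h1 h3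
    rwa [sub_add_cancel] at this

/-- **The closed point below a crossing point is stable under `σ ^ 2`.** -/
theorem CrossKron.sq_stable (h : CrossKron q a₀ β σ P1 P2 n) (f : S₀) :
    a₀ f ∈ maximalIdeal S ↔ a₀ (σ.symm (σ.symm f)) ∈ maximalIdeal S := by
  rw [← h.comap_n, ← h.comap_n, h.alpha_mem_iff f, h.beta_mem_iff (σ.symm f)]

/-- `x ∈ P1`. -/
theorem CrossKron.x_mem1 (h : CrossKron q a₀ β σ P1 P2 n) (θ' : S₀) :
    crossX q a₀ β σ θ' ∈ P1 :=
  h.kron1 (σ.symm θ')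

/-- The parameter `θ` lies in the maximal ideal. -/
theorem CrossKron.theta_mem (h : CrossKron q a₀ β σ P1 P2 n) (θ' : S₀)
    (hθ' : a₀ θ' ∈ maximalIdeal S) : crossθ q a₀ σ θ' ∈ maximalIdeal S := by
  have hy : a₀ (σ.symm (σ.symm θ')) ∈ maximalIdeal S := (h.sq_stable θ').mp hθ'
  have hq2 : 0 < q ^ 2 := pow_pos h.hq.pos 2
  exact (maximalIdeal S).sub_mem hθ' ((maximalIdeal S).pow_mem_of_mem hy _ hq2)

/-- The key identity: `θ' * (1 - b * y ^ (q ^ 2 - 1)) = θ + q * (a * y ^ (q ^ 2 - 1))` for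
`y = σ⁻² θ' = a * q + b * θ'`. -/
theorem CrossKron.exists_unit_mul (h : CrossKron q a₀ β σ P1 P2 n) (θ' : S₀)
    (hmax : maximalIdeal S = Ideal.span {(q : S), a₀ θ'}) :
    ∃ (u : S) (c : S), IsUnit u ∧ a₀ θ' * u = crossθ q a₀ σ θ' + (q : S) * c := by
  have hθ' : a₀ θ' ∈ maximalIdeal S := by
    rw [hmax]
    exact Ideal.subset_span (Set.mem_insert_of_mem _ rfl)
  have hy : a₀ (σ.symm (σ.symm θ')) ∈ maximalIdeal S := (h.sq_stable θ').mp hθ'
  set y : S := a₀ (σ.symm (σ.symm θ')) with hydef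
  have hy' := hy
  rw [hmax] at hy'
  obtain ⟨a, b, hab⟩ := Ideal.mem_span_pair.mp hy'
  have hq2 : 1 ≤ q ^ 2 := Nat.one_le_pow _ _ h.hq.pos
  have hq2' : 1 ≤ q ^ 2 - 1 := by
    have := h.hq.two_le
    have : 4 ≤ q ^ 2 := by nlinarith
    omega
  have hpow : y ^ (q ^ 2) = y * y ^ (q ^ 2 - 1) := by
    rw [← pow_succ', Nat.sub_add_cancel hq2]
  have hym : y ^ (q ^ 2 - 1) ∈ maximalIdeal S :=
    (maximalIdeal S).pow_mem_of_mem hy _ hq2'
  refine ⟨1 - b * y ^ (q ^ 2 - 1), a * y ^ (q ^ 2 - 1), ?_, ?_⟩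
  · have hnu : b * y ^ (q ^ 2 - 1) ∈ maximalIdeal S := (maximalIdeal S).mul_mem_left _ hym
    have h1 : ¬ IsUnit (b * y ^ (q ^ 2 - 1)) := (IsLocalRing.mem_maximalIdeal _).mp hnu
    have h2 := IsLocalRing.isUnit_one_sub_self_of_mem_nonunits _ h1
    exact h2
  · have e : crossθ q a₀ σ θ' = a₀ θ' - y ^ (q ^ 2) := rfl
    rw [e, hpow]
    nth_rewrite 2 [← hab]
    ring

/-- **`m_S = (q, θ)`.** -/
theorem CrossKron.max_S (h : CrossKron q a₀ β σ P1 P2 n) (θ' : S₀)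
    (hmax : maximalIdeal S = Ideal.span {(q : S), a₀ θ'}) :
    maximalIdeal S = Ideal.span {(q : S), crossθ q a₀ σ θ'} := by
  have hθ' : a₀ θ' ∈ maximalIdeal S := by
    rw [hmax]
    exact Ideal.subset_span (Set.mem_insert_of_mem _ rfl)
  have hqm : (q : S) ∈ maximalIdeal S := by
    rw [hmax]
    exact Ideal.subset_span (Set.mem_insert _ _)
  refine le_antisymm ?_ ?_
  · obtain ⟨u, c, hu, huc⟩ := h.exists_unit_mul θ' hmax
    obtain ⟨v, hv⟩ := hu.exists_right_inv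
    have hθ'' : a₀ θ' ∈ Ideal.span {(q : S), crossθ q a₀ σ θ'} := by
      have e : a₀ θ' = (crossθ q a₀ σ θ' + (q : S) * c) * v := by
        rw [← huc, mul_assoc, hv, mul_one]
      rw [e]
      refine Ideal.mul_mem_right _ _ (Ideal.add_mem _ ?_ ?_)
      · exact Ideal.subset_span (Set.mem_insert_of_mem _ rfl)
      · exact Ideal.mul_mem_right _ _ (Ideal.subset_span (Set.mem_insert _ _))
    rw [hmax, Ideal.span_le]
    rintro z (rfl | rfl)
    · exact Ideal.subset_span (Set.mem_insert _ _)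
    · exact hθ''
  · rw [Ideal.span_le]
    rintro z (rfl | rfl)
    · exact hqm
    · exact h.theta_mem θ' hθ'

/-- `q` does not divide `θ` when it does not divide `θ'`. -/
theorem CrossKron.not_dvd_theta (h : CrossKron q a₀ β σ P1 P2 n) (θ' : S₀)
    (hmax : maximalIdeal S = Ideal.span {(q : S), a₀ θ'}) (hθ' : ¬ (q : S) ∣ a₀ θ') :
    ¬ (q : S) ∣ crossθ q a₀ σ θ' := by
  intro hdvd
  obtain ⟨u, c, hu, huc⟩ := h.exists_unit_mul θ' hmax
  obtain ⟨v, hv⟩ := hu.exists_right_inv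
  obtain ⟨d, hd⟩ := hdvd
  apply hθ'
  refine ⟨(d + c) * v, ?_⟩
  have e : a₀ θ' = (crossθ q a₀ σ θ' + (q : S) * c) * v := by
    rw [← huc, mul_assoc, hv, mul_one]
  rw [e, hd]
  ring

end Basic

section Pow

variable {q : ℕ} {S₀ S R : Type*} [CommRing S₀] [CommRing S] [CommRing R] [Algebra S R]
  [IsLocalRing S] {a₀ : S₀ →+* S} {β : S₀ →+* R} {σ : S₀ ≃+* S₀} {P1 P2 n : Ideal R}

/-- Frobenius is additive modulo an ideal containing `q`. -/
theorem sub_pow_sub_mem {R : Type*} [CommRing R] {q : ℕ} (hq : q.Prime) (I : Ideal R)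
    (hqI : (q : R) ∈ I) (a b : R) : (a - b) ^ q - (a ^ q - b ^ q) ∈ I := by
  have hchar : ((q : ℕ) : R ⧸ I) = 0 := by
    have : (Ideal.Quotient.mk I) (q : R) = 0 := Ideal.Quotient.eq_zero_iff_mem.mpr hqI
    simpa using this
  haveI : Fact q.Prime := ⟨hq⟩
  rw [← Ideal.Quotient.eq_zero_iff_mem]
  by_cases htop : I = ⊤
  · subst htop
    exact Subsingleton.elim _ _
  · haveI : Nontrivial (R ⧸ I) := Ideal.Quotient.nontrivial_iff.mpr htop
    haveI : CharP (R ⧸ I) q := by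
      refine (CharP.charP_iff_prime_eq_zero hq).mpr hchar
    simp only [map_sub, map_pow]
    rw [sub_pow_char, sub_self]

/-- **`x ^ q ≡ θ` modulo `P2`.** -/
theorem CrossKron.x_pow (h : CrossKron q a₀ β σ P1 P2 n) (θ' : S₀) :
    crossX q a₀ β σ θ' ^ q - algebraMap S R (crossθ q a₀ σ θ') ∈ P2 := by
  -- notation
  set y : S₀ := σ.symm (σ.symm θ') with hy
  set B1 : R := β (σ.symm θ') with hB1
  set B3 : R := β (σ.symm y) with hB3
  set Ay : R := algebraMap S R (a₀ y) with hAy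
  set Aθ : R := algebraMap S R (a₀ θ') with hAθ
  have k1 : Aθ - B1 ^ q ∈ P2 := h.kron2 θ'
  have k2 : Ay - B3 ^ q ∈ P2 := h.kron2 y
  have hx : crossX q a₀ β σ θ' = B1 - Ay ^ q := rfl
  have hθ : algebraMap S R (crossθ q a₀ σ θ') = Aθ - Ay ^ (q ^ 2) := by
    simp only [crossθ, map_sub, map_pow]
    rfl
  rw [hx, hθ]
  -- `(B1 - Ay^q)^q ≡ B1^q - (Ay^q)^q`
  have e1 : (B1 - Ay ^ q) ^ q - (B1 ^ q - (Ay ^ q) ^ q) ∈ P2 :=
    sub_pow_sub_mem h.hq P2 h.q_mem2 _ _
  have e2 : (Ay ^ q) ^ q = Ay ^ (q ^ 2) := by rw [← pow_mul, pow_two]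
  have e3 : (B1 - Ay ^ q) ^ q - (Aθ - Ay ^ (q ^ 2)) =
      ((B1 - Ay ^ q) ^ q - (B1 ^ q - (Ay ^ q) ^ q)) - (Aθ - B1 ^ q) := by
    rw [e2]
    ring
  rw [e3]
  exact P2.sub_mem e1 k1

/-- **`x ∉ P2`.** -/
theorem CrossKron.x_not_mem2 (h : CrossKron q a₀ β σ P1 P2 n) (θ' : S₀)
    (hmax : maximalIdeal S = Ideal.span {(q : S), a₀ θ'}) (hθ' : ¬ (q : S) ∣ a₀ θ')
    (comap2 : ∀ s : S, algebraMap S R s ∈ P2 → (q : S) ∣ s) :
    crossX q a₀ β σ θ' ∉ P2 := by
  intro hx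
  have h1 : crossX q a₀ β σ θ' ^ q ∈ P2 := P2.pow_mem_of_mem hx q h.hq.pos
  have h2 := h.x_pow θ'
  have h3 : algebraMap S R (crossθ q a₀ σ θ') ∈ P2 := by
    have := P2.sub_mem h1 h2
    rwa [sub_sub_cancel] at this
  exact h.not_dvd_theta θ' hmax hθ' (comap2 _ h3)

end Pow

section Node

variable {q : ℕ} {S₀ S R : Type*} [CommRing S₀] [CommRing S] [CommRing R] [IsDomain R]
  [Algebra S R] [IsLocalRing S] [IsNoetherianRing S] [Module.Finite S R]
  {a₀ : S₀ →+* S} {β : S₀ →+* R} {σ : S₀ ≃+* S₀} {P1 P2 n : Ideal R}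

/-- The `PreNode` of helper36 at a crossing point, from the Kronecker data and the model-side
fields. -/
theorem CrossKron.preNode (h : CrossKron q a₀ β σ P1 P2 n) (θ' : S₀)
    (hmax : maximalIdeal S = Ideal.span {(q : S), a₀ θ'}) (hθ' : ¬ (q : S) ∣ a₀ θ')
    (comap2 : ∀ s : S, algebraMap S R s ∈ P2 → (q : S) ∣ s)
    (prime_q : Prime (q : S)) (inj : Function.Injective (algebraMap S R))
    (prime1 : P1.IsPrime) (prime2 : P2.IsPrime)
    (inf_eq : P1 ⊓ P2 = Ideal.span {(q : R)})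
    (surj1 : ∀ r : R, ∃ s : S, r - algebraMap S R s ∈ P1)
    (comap1 : ∀ s : S, algebraMap S R s ∈ P1 → (q : S) ∣ s)
    (frac2 : ∀ r : R, ∃ d f : S[X], aeval (crossX q a₀ β σ θ') d ∉ P2 ∧
      aeval (crossX q a₀ β σ θ') d * r - aeval (crossX q a₀ β σ θ') f ∈ P2) :
    Fermat.Agent.S34.H36.PreNode q S R (crossθ q a₀ σ θ') P1 P2 (crossX q a₀ β σ θ') where
  two_le := h.hq.two_le
  prime_q := prime_q
  max_S := h.max_S θ' hmax
  inj := inj
  prime1 := prime1
  prime2 := prime2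
  inf_eq := inf_eq
  surj1 := surj1
  comap1 := comap1
  x_mem1 := h.x_mem1 θ'
  x_not_mem2 := h.x_not_mem2 θ' hmax hθ' comap2
  x_pow := h.x_pow θ'
  frac2 := frac2

/-- **The node at a crossing point**: `R` is local and the hypotheses `NodeHyp` of the monogenic
node package hold, for the explicit pair `(θ, x) = (crossθ, crossX)`. -/
theorem CrossKron.nodeHyp (h : CrossKron q a₀ β σ P1 P2 n) (θ' : S₀)
    (hmax : maximalIdeal S = Ideal.span {(q : S), a₀ θ'}) (hθ' : ¬ (q : S) ∣ a₀ θ')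
    (comap2 : ∀ s : S, algebraMap S R s ∈ P2 → (q : S) ∣ s)
    (prime_q : Prime (q : S)) (inj : Function.Injective (algebraMap S R))
    (prime1 : P1.IsPrime) (prime2 : P2.IsPrime)
    (inf_eq : P1 ⊓ P2 = Ideal.span {(q : R)})
    (surj1 : ∀ r : R, ∃ s : S, r - algebraMap S R s ∈ P1)
    (comap1 : ∀ s : S, algebraMap S R s ∈ P1 → (q : S) ∣ s)
    (frac2 : ∀ r : R, ∃ d f : S[X], aeval (crossX q a₀ β σ θ') d ∉ P2 ∧
      aeval (crossX q a₀ β σ θ') d * r - aeval (crossX q a₀ β σ θ') f ∈ P2) :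
    ∃ _ : IsLocalRing R,
      Fermat.Agent.S34.H46.NodeHyp q S R (crossθ q a₀ σ θ') P1 P2 (crossX q a₀ β σ θ') := by
  have hpre := h.preNode θ' hmax hθ' comap2 prime_q inj prime1 prime2 inf_eq surj1 comap1 frac2
  rcases hpre.dichotomy with hs | hnode
  · exfalso
    have hle : P1 ⊔ P2 ≤ n := sup_le h.le1 h.le2
    rw [hs] at hle
    exact h.prime_n.ne_top (top_le_iff.mp hle)
  · exact hnode

end Node

end Fermat.Agent.S34.H34
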