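/-
Program B' (S34), helper34: the chart-level → local bridge for the Kronecker side of the
crossing points (M6b (i)).

`S0` = the level-`M'` chart, `C0` = the level-`qM'` chart (an `S0`-algebra through `α`),
`β₀ : S0 →+* C0` the second degeneracy map, `σ` the Frobenius twist of `S0`, `P1`, `P2` the two
components of the special fibre of `C0`, `x0 ⊇ P1 + P2` a crossing point and `s = x0 ∩ S0`.
With

  `S := Localization.AtPrime s`,   `R := Localization (Algebra.algebraMapSubmonoid C0 s.primeCompl)`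

(`R` an `S`-algebra by Mathlib's `localizationAlgebra` instance), the chart-level Kronecker
congruences give the local structure `CrossKron` of `CrossKron.lean`:

* `crossKron_of_chart` : `CrossKron q (algebraMap S0 S) (β₀ then C0 → R) σ (P1 R) (P2 R) (x0 R)`;
  `crossKron_of_chart'` : the same for any component ideals of `R` between `P_i R` and `x0 R`
  (`CrossKron.mono`);
* `sq_stable_of_chart` : `s` is stable under `σ ^ 2` (chart level);
* `chartθ`, `chartX` : the chart-level elements `θ = θ' - (σ⁻² θ') ^ (q ^ 2) ∈ S0` and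
  `x = β₀ (σ⁻¹ θ') - α (σ⁻² θ') ^ q ∈ C0`, with `chartX_mem1` (`x ∈ P1`), `chartX_pow`
  (`x ^ q - α θ ∈ P2`) at chart level, and `algebraMap_chartθ`, `algebraMap_chartX` (their
  images are `crossθ`, `crossX`);
* `nodeHyp_of_chart` : the node package `NodeHyp` on `(S, R)` for the images of `chartθ`,
  `chartX`, from the chart-level Kronecker data and the local (model-side) fields.
-/
import Fermat.Agent.S34.H34.CrossKron

set_option autoImplicit false
set_option linter.unusedSectionVars false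
set_option linter.style.haveILetI false

namespace Fermat.Agent.S34.H34

open Ideal IsLocalRing Polynomial

section ChartElems

variable (q : ℕ) {S0 C0 : Type*} [CommRing S0] [CommRing C0] [Algebra S0 C0]

/-- The chart-level local parameter `θ = θ' - (σ⁻² θ') ^ (q ^ 2)`. -/
def chartθ (σ : S0 ≃+* S0) (θ' : S0) : S0 :=
  θ' - σ.symm (σ.symm θ') ^ (q ^ 2)

/-- The chart-level generator `x = β₀ (σ⁻¹ θ') - α (σ⁻² θ') ^ q`. -/
def chartX (β₀ : S0 →+* C0) (σ : S0 ≃+* S0) (θ' : S0) : C0 :=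
  β₀ (σ.symm θ') - algebraMap S0 C0 (σ.symm (σ.symm θ')) ^ q

variable {q}

/-- `x ∈ P1` at chart level. -/
theorem chartX_mem1 (β₀ : S0 →+* C0) (σ : S0 ≃+* S0) (P1 : Ideal C0)
    (hk1 : ∀ g : S0, β₀ g - algebraMap S0 C0 (σ.symm g) ^ q ∈ P1) (θ' : S0) :
    chartX q β₀ σ θ' ∈ P1 :=
  hk1 (σ.symm θ')

/-- `x ^ q ≡ α θ` modulo `P2` at chart level. -/
theorem chartX_pow (hq : q.Prime) (β₀ : S0 →+* C0) (σ : S0 ≃+* S0) (P2 : Ideal C0)
    (hq2 : (q : C0) ∈ P2)
    (hk2 : ∀ f : S0, algebraMap S0 C0 f - β₀ (σ.symm f) ^ q ∈ P2) (θ' : S0) :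
    chartX q β₀ σ θ' ^ q - algebraMap S0 C0 (chartθ q σ θ') ∈ P2 := by
  set y : S0 := σ.symm (σ.symm θ') with hy
  set B1 : C0 := β₀ (σ.symm θ') with hB1
  set Ay : C0 := algebraMap S0 C0 y with hAy
  set Aθ : C0 := algebraMap S0 C0 θ' with hAθ
  have k1 : Aθ - B1 ^ q ∈ P2 := hk2 θ'
  have hx : chartX q β₀ σ θ' = B1 - Ay ^ q := rfl
  have hθ : algebraMap S0 C0 (chartθ q σ θ') = Aθ - Ay ^ (q ^ 2) := by
    simp only [chartθ, map_sub, map_pow]
    rfl
  rw [hx, hθ]
  have e1 : (B1 - Ay ^ q) ^ q - (B1 ^ q - (Ay ^ q) ^ q) ∈ P2 :=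
    sub_pow_sub_mem hq P2 hq2 _ _
  have e2 : (Ay ^ q) ^ q = Ay ^ (q ^ 2) := by rw [← pow_mul, pow_two]
  have e3 : (B1 - Ay ^ q) ^ q - (Aθ - Ay ^ (q ^ 2)) =
      ((B1 - Ay ^ q) ^ q - (B1 ^ q - (Ay ^ q) ^ q)) - (Aθ - B1 ^ q) := by
    rw [e2]
    ring
  rw [e3]
  exact P2.sub_mem e1 k1

/-- Chart level: `α f ∈ x0 ↔ β₀ (σ⁻¹ f) ∈ x0`. -/
theorem alpha_mem_iff_of_chart (hq : q.Prime) (β₀ : S0 →+* C0) (σ : S0 ≃+* S0)
    (P2 x0 : Ideal C0) [x0.IsPrime] (h2 : P2 ≤ x0)
    (hk2 : ∀ f : S0, algebraMap S0 C0 f - β₀ (σ.symm f) ^ q ∈ P2) (f : S0) :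
    algebraMap S0 C0 f ∈ x0 ↔ β₀ (σ.symm f) ∈ x0 := by
  have h := h2 (hk2 f)
  constructor
  · intro hf
    have h3 : β₀ (σ.symm f) ^ q ∈ x0 := by
      have := x0.sub_mem hf h
      rwa [sub_sub_cancel] at this
    exact Ideal.IsPrime.mem_of_pow_mem inferInstance q h3
  · intro hf
    have h3 : β₀ (σ.symm f) ^ q ∈ x0 := x0.pow_mem_of_mem hf q hq.pos
    have := x0.add_mem h h3
    rwa [sub_add_cancel] at this

/-- Chart level: `β₀ g ∈ x0 ↔ α (σ⁻¹ g) ∈ x0`. -/
theorem beta_mem_iff_of_chart (hq : q.Prime) (β₀ : S0 →+* C0) (σ : S0 ≃+* S0)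
    (P1 x0 : Ideal C0) [x0.IsPrime] (h1 : P1 ≤ x0)
    (hk1 : ∀ g : S0, β₀ g - algebraMap S0 C0 (σ.symm g) ^ q ∈ P1) (g : S0) :
    β₀ g ∈ x0 ↔ algebraMap S0 C0 (σ.symm g) ∈ x0 := by
  have h := h1 (hk1 g)
  constructor
  · intro hg
    have h3 : algebraMap S0 C0 (σ.symm g) ^ q ∈ x0 := by
      have := x0.sub_mem hg h
      rwa [sub_sub_cancel] at this
    exact Ideal.IsPrime.mem_of_pow_mem inferInstance q h3
  · intro hg
    have h3 : algebraMap S0 C0 (σ.symm g) ^ q ∈ x0 := x0.pow_mem_of_mem hg q hq.pos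
    have := x0.add_mem h h3
    rwa [sub_add_cancel] at this

/-- **Chart level: the point of the level-`M'` chart below a crossing point is stable under
`σ ^ 2`** (it is "`𝔽_{q²}`-rational"). -/
theorem sq_stable_of_chart (hq : q.Prime) (β₀ : S0 →+* C0) (σ : S0 ≃+* S0)
    (P1 P2 x0 : Ideal C0) [x0.IsPrime] (h1 : P1 ≤ x0) (h2 : P2 ≤ x0)
    (hk1 : ∀ g : S0, β₀ g - algebraMap S0 C0 (σ.symm g) ^ q ∈ P1)
    (hk2 : ∀ f : S0, algebraMap S0 C0 f - β₀ (σ.symm f) ^ q ∈ P2) (f : S0) :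
    f ∈ x0.comap (algebraMap S0 C0) ↔ σ.symm (σ.symm f) ∈ x0.comap (algebraMap S0 C0) := by
  rw [Ideal.mem_comap, Ideal.mem_comap, alpha_mem_iff_of_chart hq β₀ σ P2 x0 h2 hk2 f,
    beta_mem_iff_of_chart hq β₀ σ P1 x0 h1 hk1 (σ.symm f)]

end ChartElems

section Loc

variable {q : ℕ} {S0 C0 : Type*} [CommRing S0] [CommRing C0] [Algebra S0 C0]
  (s : Ideal S0) [s.IsPrime]

local notation "S" => Localization.AtPrime s
local notation "R" => Localization (Algebra.algebraMapSubmonoid C0 s.primeCompl)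

/-- The square `S0 → S → R`, `S0 → C0 → R` commutes. -/
theorem algebraMap_loc_comm (a : S0) :
    algebraMap S R (algebraMap S0 S a) = algebraMap C0 R (algebraMap S0 C0 a) := by
  rw [← IsScalarTower.algebraMap_apply S0 S R, IsScalarTower.algebraMap_apply S0 C0 R]

/-- A prime of `C0` lying over `s` is disjoint from the image of `S0 ∖ s`. -/
theorem disjoint_of_comap_eq (x0 : Ideal C0) (hx0 : x0.comap (algebraMap S0 C0) = s) :
    Disjoint ((Algebra.algebraMapSubmonoid C0 s.primeCompl : Submonoid C0) : Set C0)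
      (x0 : Set C0) := by
  rw [Set.disjoint_left]
  rintro c ⟨d, hd, rfl⟩ hc
  apply hd
  rw [← hx0]
  exact hc

/-- The extension of a crossing point to `R` is prime. -/
theorem isPrime_map_of_comap_eq (x0 : Ideal C0) [hx : x0.IsPrime]
    (hx0 : x0.comap (algebraMap S0 C0) = s) : (x0.map (algebraMap C0 R)).IsPrime :=
  IsLocalization.isPrime_of_isPrime_disjoint (Algebra.algebraMapSubmonoid C0 s.primeCompl) R x0
    hx (disjoint_of_comap_eq s x0 hx0)

/-- Membership in the extension of a prime lying over `s` is tested in `C0`. -/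
theorem algebraMap_mem_map_iff (x0 : Ideal C0) [hx : x0.IsPrime]
    (hx0 : x0.comap (algebraMap S0 C0) = s) (c : C0) :
    algebraMap C0 R c ∈ x0.map (algebraMap C0 R) ↔ c ∈ x0 := by
  have h := IsLocalization.under_map_of_isPrime_disjoint
    (Algebra.algebraMapSubmonoid C0 s.primeCompl) R hx (disjoint_of_comap_eq s x0 hx0)
  constructor
  · intro hc
    rw [← h]
    exact hc
  · intro hc
    exact Ideal.mem_map_of_mem _ hc

/-- The extension of a prime of `C0` lying over `s` lies over the closed point of `S`. -/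
theorem comap_map_of_comap_eq (x0 : Ideal C0) [hx : x0.IsPrime]
    (hx0 : x0.comap (algebraMap S0 C0) = s) (t : S) :
    algebraMap S R t ∈ x0.map (algebraMap C0 R) ↔ t ∈ maximalIdeal S := by
  haveI := isPrime_map_of_comap_eq s x0 hx0
  obtain ⟨⟨a, d⟩, had⟩ := IsLocalization.surj s.primeCompl t
  -- `t * d = a`
  have hdu : IsUnit (algebraMap S0 S (d : S0)) := IsLocalization.map_units S d
  have hdu' : IsUnit (algebraMap S R (algebraMap S0 S (d : S0))) := hdu.map _
  have e1 : algebraMap S R t * algebraMap S R (algebraMap S0 S (d : S0)) =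
      algebraMap C0 R (algebraMap S0 C0 a) := by
    rw [← map_mul, had, algebraMap_loc_comm]
  have hR : algebraMap S R t ∈ x0.map (algebraMap C0 R) ↔
      algebraMap C0 R (algebraMap S0 C0 a) ∈ x0.map (algebraMap C0 R) := by
    rw [← e1]
    constructor
    · intro h
      exact Ideal.mul_mem_right _ _ h
    · intro h
      rcases (Ideal.IsPrime.mem_or_mem inferInstance h) with h' | h'
      · exact h'
      · exact absurd (Ideal.eq_top_of_isUnit_mem _ h' hdu')
          (Ideal.IsPrime.ne_top inferInstance)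
  have hS : t ∈ maximalIdeal S ↔ algebraMap S0 S a ∈ maximalIdeal S := by
    rw [← had]
    constructor
    · intro h
      exact Ideal.mul_mem_right _ _ h
    · intro h
      rcases (Ideal.IsPrime.mem_or_mem (maximalIdeal.isMaximal S).isPrime h) with h' | h'
      · exact h'
      · exact absurd hdu ((mem_maximalIdeal _).mp h')
  rw [hR, hS, algebraMap_mem_map_iff s x0 hx0, IsLocalization.AtPrime.to_map_mem_maximal_iff S s,
    ← hx0, Ideal.mem_comap]

/-- **The chart-level Kronecker congruences at a crossing point give the local Kronecker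
structure** on `(S, R)`. -/
theorem crossKron_of_chart (hq : q.Prime) (β₀ : S0 →+* C0) (σ : S0 ≃+* S0)
    (P1 P2 x0 : Ideal C0) [x0.IsPrime] (hx0 : x0.comap (algebraMap S0 C0) = s)
    (h1 : P1 ≤ x0) (h2 : P2 ≤ x0) (hq2 : (q : C0) ∈ P2)
    (hk1 : ∀ g : S0, β₀ g - algebraMap S0 C0 (σ.symm g) ^ q ∈ P1)
    (hk2 : ∀ f : S0, algebraMap S0 C0 f - β₀ (σ.symm f) ^ q ∈ P2) :
    CrossKron q (algebraMap S0 S) ((algebraMap C0 R).comp β₀) σ
      (P1.map (algebraMap C0 R)) (P2.map (algebraMap C0 R)) (x0.map (algebraMap C0 R)) where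
  hq := hq
  prime_n := isPrime_map_of_comap_eq s x0 hx0
  le1 := Ideal.map_mono h1
  le2 := Ideal.map_mono h2
  q_mem2 := by
    have h := Ideal.mem_map_of_mem (algebraMap C0 R) hq2
    rwa [map_natCast] at h
  comap_n := comap_map_of_comap_eq s x0 hx0
  kron1 := fun g => by
    have h := Ideal.mem_map_of_mem (algebraMap C0 R) (hk1 g)
    rw [map_sub, map_pow, ← algebraMap_loc_comm] at h
    exact h
  kron2 := fun f => by
    have h := Ideal.mem_map_of_mem (algebraMap C0 R) (hk2 f)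
    rw [map_sub, map_pow, ← algebraMap_loc_comm] at h
    exact h

/-- The Kronecker structure only gets weaker when the two component ideals are enlarged inside
the crossing point. -/
theorem CrossKron.mono {S₀ S' R' : Type*} [CommRing S₀] [CommRing S'] [CommRing R']
    [Algebra S' R'] [IsLocalRing S'] {a₀ : S₀ →+* S'} {β : S₀ →+* R'} {σ : S₀ ≃+* S₀}
    {P1 P2 n P1' P2' : Ideal R'} (h : CrossKron q a₀ β σ P1 P2 n)
    (h1 : P1 ≤ P1') (h1' : P1' ≤ n) (h2 : P2 ≤ P2') (h2' : P2' ≤ n) :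
    CrossKron q a₀ β σ P1' P2' n where
  hq := h.hq
  prime_n := h.prime_n
  le1 := h1'
  le2 := h2'
  q_mem2 := h2 h.q_mem2
  comap_n := h.comap_n
  kron1 := fun g => h1 (h.kron1 g)
  kron2 := fun f => h2 (h.kron2 f)

/-- `crossKron_of_chart` for arbitrary component ideals `P1'`, `P2'` of `R` between the
extensions of `P1`, `P2` and the crossing point (e.g. the valuation-theoretic components
`{r | r ∈ m(V_i)}` of `R`). -/
theorem crossKron_of_chart' (hq : q.Prime) (β₀ : S0 →+* C0) (σ : S0 ≃+* S0)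
    (P1 P2 x0 : Ideal C0) [x0.IsPrime] (hx0 : x0.comap (algebraMap S0 C0) = s)
    (h1 : P1 ≤ x0) (h2 : P2 ≤ x0) (hq2 : (q : C0) ∈ P2)
    (hk1 : ∀ g : S0, β₀ g - algebraMap S0 C0 (σ.symm g) ^ q ∈ P1)
    (hk2 : ∀ f : S0, algebraMap S0 C0 f - β₀ (σ.symm f) ^ q ∈ P2)
    (P1' P2' : Ideal R)
    (hP1 : ∀ c ∈ P1, algebraMap C0 R c ∈ P1') (hP1' : P1' ≤ x0.map (algebraMap C0 R))
    (hP2 : ∀ c ∈ P2, algebraMap C0 R c ∈ P2') (hP2' : P2' ≤ x0.map (algebraMap C0 R)) :
    CrossKron q (algebraMap S0 S) ((algebraMap C0 R).comp β₀) σ P1' P2'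
      (x0.map (algebraMap C0 R)) :=
  (crossKron_of_chart s hq β₀ σ P1 P2 x0 hx0 h1 h2 hq2 hk1 hk2).mono
    (Ideal.map_le_iff_le_comap.mpr fun c hc => hP1 c hc) hP1'
    (Ideal.map_le_iff_le_comap.mpr fun c hc => hP2 c hc) hP2'

/-- The image of `chartθ` in `S` is `crossθ`. -/
theorem algebraMap_chartθ (σ : S0 ≃+* S0) (θ' : S0) :
    algebraMap S0 S (chartθ q σ θ') = crossθ q (algebraMap S0 S) σ θ' := by
  simp only [chartθ, crossθ, map_sub, map_pow]

/-- The image of `chartX` in `R` is `crossX`. -/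
theorem algebraMap_chartX (β₀ : S0 →+* C0) (σ : S0 ≃+* S0) (θ' : S0) :
    algebraMap C0 R (chartX q β₀ σ θ') =
      crossX q (algebraMap S0 S) ((algebraMap C0 R).comp β₀) σ θ' := by
  simp only [chartX, crossX, map_sub, map_pow, RingHom.comp_apply, algebraMap_loc_comm]

end Loc

section Node

variable {q : ℕ} {S0 C0 : Type*} [CommRing S0] [CommRing C0] [Algebra S0 C0]
  (s : Ideal S0) [s.IsPrime]

local notation "S" => Localization.AtPrime s
local notation "R" => Localization (Algebra.algebraMapSubmonoid C0 s.primeCompl)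

/-- **The node at a crossing point, chart-level Kronecker data in.**  `R` is local and the
hypotheses `NodeHyp` of the monogenic node package hold on `(S, R)` for the images of the
chart-level elements `chartθ`, `chartX`. -/
theorem nodeHyp_of_chart [IsDomain R] [IsNoetherianRing S] [Module.Finite S R]
    (hq : q.Prime) (β₀ : S0 →+* C0) (σ : S0 ≃+* S0)
    (P1 P2 x0 : Ideal C0) [x0.IsPrime] (hx0 : x0.comap (algebraMap S0 C0) = s)
    (h1 : P1 ≤ x0) (h2 : P2 ≤ x0) (hq2 : (q : C0) ∈ P2)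
    (hk1 : ∀ g : S0, β₀ g - algebraMap S0 C0 (σ.symm g) ^ q ∈ P1)
    (hk2 : ∀ f : S0, algebraMap S0 C0 f - β₀ (σ.symm f) ^ q ∈ P2)
    (θ' : S0)
    (hmax : maximalIdeal S = Ideal.span {(q : S), algebraMap S0 S θ'})
    (hθ' : ¬ (q : S) ∣ algebraMap S0 S θ')
    (comap2 : ∀ t : S, algebraMap S R t ∈ P2.map (algebraMap C0 R) → (q : S) ∣ t)
    (prime_q : Prime (q : S)) (inj : Function.Injective (algebraMap S R))
    (prime1 : (P1.map (algebraMap C0 R)).IsPrime) (prime2 : (P2.map (algebraMap C0 R)).IsPrime)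
    (inf_eq : P1.map (algebraMap C0 R) ⊓ P2.map (algebraMap C0 R) = Ideal.span {(q : R)})
    (surj1 : ∀ r : R, ∃ t : S, r - algebraMap S R t ∈ P1.map (algebraMap C0 R))
    (comap1 : ∀ t : S, algebraMap S R t ∈ P1.map (algebraMap C0 R) → (q : S) ∣ t)
    (frac2 : ∀ r : R, ∃ d f : S[X], aeval (algebraMap C0 R (chartX q β₀ σ θ')) d ∉
        P2.map (algebraMap C0 R) ∧
      aeval (algebraMap C0 R (chartX q β₀ σ θ')) d * r -
        aeval (algebraMap C0 R (chartX q β₀ σ θ')) f ∈ P2.map (algebraMap C0 R)) :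
    ∃ _ : IsLocalRing R, Fermat.Agent.S34.H46.NodeHyp q S R
      (algebraMap S0 S (chartθ q σ θ')) (P1.map (algebraMap C0 R)) (P2.map (algebraMap C0 R))
      (algebraMap C0 R (chartX q β₀ σ θ')) := by
  have hK := crossKron_of_chart s hq β₀ σ P1 P2 x0 hx0 h1 h2 hq2 hk1 hk2
  rw [algebraMap_chartθ, algebraMap_chartX]
  rw [algebraMap_chartX] at frac2
  exact hK.nodeHyp θ' hmax hθ' comap2 prime_q inj prime1 prime2 inf_eq surj1 comap1 frac2

end Node

end Fermat.Agent.S34.H34
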