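/-
Program B' (S34), helper34: the FROBENIUS TWIST on the `E`-form of `F_N` over the inertia field.

M6b (crossing points) runs over the unramified base `A ∩ E`, `E = H92.inertiaField A K₀` the
inertia field of `A` in a finite Galois `K₀ / ℚ`.  `E` is not normal over `ℚ` in general, so the
twist `H61.tauForm` (which needs `Normal ℚ E`) is not available.  But `E` is stable under the
DECOMPOSITION group of `A` (the inertia group is normal in it), and a Frobenius lift lies in the
decomposition group.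

* `apply_mem_inertiaField` : `s ∈ D_A`, `a ∈ inertiaField A K₀` ⟹ `s a ∈ inertiaField A K₀`;
* `arithmeticRingAut_mem_ratForm_of_stable` : the Galois action of `s` preserves `ratForm N E`
  as soon as `s E ⊆ E`;
* `tauFormOn N E s hE hE'` : the restriction of the Galois action of `s` to `ratForm N E`, a ring
  automorphism (`hE : s E ⊆ E`, `hE' : s⁻¹ E ⊆ E`);
* `tauFormOn_mem_chart_iff` : it preserves the chart of a rational base function (`s ∈ D_A`);
* `tauFormOn_alphaForm`, `tauFormOn_betaForm` : it commutes with the two degeneracy maps;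
* `kron1_ratForm`, `kron2_ratForm` : the two Kronecker congruences on the `E`-forms,
  `β g ≡ α (σ⁻¹ g) ^ q` modulo `m(O₁)` and `α f ≡ β (σ⁻¹ f) ^ q` modulo `m(O₂)`, for
  `σ = tauFormOn M E s` with `s` a Frobenius at `A`.
-/
import Fermat.Agent.S34.H61.FormMaps
import Fermat.Agent.S34.H92.BaseFinal
import Fermat.Agent.S34.H64.TwoGaussCor
import Fermat.Prelude.Thm_ModularCurve_coeffMap_qExpand

set_option autoImplicit false
set_option linter.unusedSectionVars false
set_option linter.style.haveILetI false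

open IntermediateField Polynomial ModularCurve AlgebraicCurve

noncomputable section

namespace Fermat.Agent.S34.H34

open Fermat.Agent.S18 Fermat.Agent.S18.H74 Fermat.Agent.S34.H19 Fermat.Agent.S34.H61
  Fermat.Agent.S34.H92 Fermat.Agent.S18.H21 NumberField

attribute [local instance] Fermat.Agent.S18.H21.numberField_of_finiteDimensional

/-! ### The inertia field is stable under the decomposition group -/

section Inertia

variable (A : ValuationSubring Kb) (K : IntermediateField ℚ Kb) [FiniteDimensional ℚ K]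
  [Normal ℚ K]

/-- The decomposition group of `A` preserves the prime of `𝓞 K` below `A`. -/
theorem smul_mem_nfCentre {s : Kb ≃ₐ[ℚ] Kb} (hs : s ∈ A.decompositionSubgroup ℚ)
    {z : 𝓞 ↥K} (hz : z ∈ nfCentre (valK A K)) :
    (s.restrictNormal ↥K) • z ∈ nfCentre (valK A K) := by
  rw [mem_nfCentre_iff, mem_nonunits_descend] at hz ⊢
  have h2 : algebraMap ↥K Kb (algebraMap (𝓞 ↥K) ↥K ((s.restrictNormal ↥K) • z)) =
      s (algebraMap ↥K Kb (algebraMap (𝓞 ↥K) ↥K z)) := by
    rw [← AlgEquiv.restrictNormal_commutes]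
    rfl
  rw [h2]
  exact Fermat.Agent.S05.H63.apply_mem_nonunits_of_mem_decompositionSubgroup hs hz

/-- **The inertia field of `A` in `K` is stable under the decomposition group of `A`.** -/
theorem apply_mem_inertiaField {s : Kb ≃ₐ[ℚ] Kb} (hs : s ∈ A.decompositionSubgroup ℚ)
    {a : Kb} (ha : a ∈ inertiaField A K) : s a ∈ inertiaField A K := by
  obtain ⟨a₀, ha₀, rfl⟩ := (mem_inertiaField_iff A K a).1 ha
  rw [mem_inertiaField_iff]
  refine ⟨s.restrictNormal ↥K a₀, ?_, AlgEquiv.restrictNormal_commutes s ↥K a₀⟩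
  rw [mem_inertiaFld_iff] at ha₀ ⊢
  intro τ hτ
  have hs' : s.symm ∈ A.decompositionSubgroup ℚ := (A.decompositionSubgroup ℚ).inv_mem hs
  set s₀ : Gal(↥K/ℚ) := s.restrictNormal ↥K with hs₀
  set t₀ : Gal(↥K/ℚ) := s.symm.restrictNormal ↥K with ht₀
  -- `t₀` is the inverse of `s₀`
  have hts : ∀ y : ↥K, t₀ (s₀ y) = y := by
    intro y
    apply (algebraMap ↥K Kb).injective
    rw [ht₀, hs₀, AlgEquiv.restrictNormal_commutes, AlgEquiv.restrictNormal_commutes,
      AlgEquiv.symm_apply_apply]
  have hst : ∀ y : ↥K, s₀ (t₀ y) = y := by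
    intro y
    apply (algebraMap ↥K Kb).injective
    rw [ht₀, hs₀, AlgEquiv.restrictNormal_commutes, AlgEquiv.restrictNormal_commutes,
      AlgEquiv.apply_symm_apply]
  -- the conjugate `t₀ τ s₀` lies in the inertia group
  have hconj : t₀ * τ * s₀ ∈ Ideal.inertia Gal(↥K/ℚ) (nfCentre (valK A K)) := by
    intro x
    have h1 : τ • (s₀ • x) - s₀ • x ∈ nfCentre (valK A K) := hτ (s₀ • x)
    have h2 := smul_mem_nfCentre A K hs' h1
    have h3 : (s.symm.restrictNormal ↥K) • (τ • (s₀ • x) - s₀ • x) = (t₀ * τ * s₀) • x - x := by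
      apply Subtype.ext
      show t₀ (τ (s₀ (x : ↥K)) - s₀ (x : ↥K)) = t₀ (τ (s₀ (x : ↥K))) - (x : ↥K)
      rw [map_sub, hts]
    rw [h3] at h2
    exact h2
  have h4 := ha₀ _ hconj
  have h5 : t₀ (τ (s₀ a₀)) = a₀ := h4
  have h6 := congrArg s₀ h5
  rw [hst] at h6
  exact h6

end Inertia

/-! ### The Galois action on the `E`-form, for `E` stable under `s` -/

section Twist

variable (N : ℕ) (E : IntermediateField ℚ Kb) (s : Kb ≃ₐ[ℚ] Kb)

/-- The Galois action of `s` preserves the `E`-form as soon as `s` maps `E` into itself. -/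
theorem arithmeticRingAut_mem_ratForm_of_stable (hE : ∀ a ∈ E, s a ∈ E) {f : FN N}
    (hf : f ∈ ratForm N E) :
    arithmeticRingAut (modularFunctionFieldFull N) s f ∈ ratForm N E := by
  induction hf using IntermediateField.adjoin_induction with
  | mem y hy =>
    obtain ⟨g, rfl⟩ := hy
    rw [arithmeticRingAut_ratEmb]
    exact ratEmb_mem_ratForm N E g
  | algebraMap c =>
    have h : arithmeticRingAut (modularFunctionFieldFull N) s (algebraMap E (FN N) c)
        = algebraMap Kb (FN N) (s (c : Kb)) :=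
      arithmeticRingAut_algebraMap (modularFunctionFieldFull N) s (c : Kb)
    rw [h]
    exact algebraMap_mem_ratForm N E (hE _ c.2)
  | add y z _ _ hy hz => rw [map_add]; exact add_mem hy hz
  | inv y _ hy => rw [map_inv₀]; exact inv_mem hy
  | mul y z _ _ hy hz => rw [map_mul]; exact mul_mem hy hz

/-- The restriction of the Galois action of `s` to the `E`-form, for `E` stable under `s` and
`s⁻¹` (e.g. `E` the inertia field and `s` in the decomposition group). -/
def tauFormOn (hE : ∀ a ∈ E, s a ∈ E) (hE' : ∀ a ∈ E, s.symm a ∈ E) :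
    ↥(ratForm N E) ≃+* ↥(ratForm N E) where
  toFun f := ⟨arithmeticRingAut (modularFunctionFieldFull N) s f,
    arithmeticRingAut_mem_ratForm_of_stable N E s hE f.2⟩
  invFun f := ⟨arithmeticRingAut (modularFunctionFieldFull N) s.symm f,
    arithmeticRingAut_mem_ratForm_of_stable N E s.symm hE' f.2⟩
  left_inv f := Subtype.ext
    ((arithmeticRingAut (modularFunctionFieldFull N) s).symm_apply_apply (f : FN N))
  right_inv f := Subtype.ext
    ((arithmeticRingAut (modularFunctionFieldFull N) s).apply_symm_apply (f : FN N))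
  map_mul' _ _ := Subtype.ext (map_mul _ _ _)
  map_add' _ _ := Subtype.ext (map_add _ _ _)

@[simp] theorem coe_tauFormOn (hE : ∀ a ∈ E, s a ∈ E) (hE' : ∀ a ∈ E, s.symm a ∈ E)
    (f : ↥(ratForm N E)) :
    ((tauFormOn N E s hE hE' f : ↥(ratForm N E)) : FN N)
      = arithmeticRingAut (modularFunctionFieldFull N) s (f : FN N) := rfl

@[simp] theorem coe_tauFormOn_symm (hE : ∀ a ∈ E, s a ∈ E) (hE' : ∀ a ∈ E, s.symm a ∈ E)
    (f : ↥(ratForm N E)) :
    (((tauFormOn N E s hE hE').symm f : ↥(ratForm N E)) : FN N)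
      = arithmeticRingAut (modularFunctionFieldFull N) s.symm (f : FN N) := rfl

/-- The inverse of the twist by `s` is the twist by `s⁻¹`. -/
theorem tauFormOn_symm_apply (hE : ∀ a ∈ E, s a ∈ E) (hE' : ∀ a ∈ E, s.symm a ∈ E)
    (f : ↥(ratForm N E)) :
    (tauFormOn N E s hE hE').symm f =
      tauFormOn N E s.symm hE' (fun a ha => by simpa using hE a ha) f := rfl

/-- For `E` normal the twist is `H61.tauForm`. -/
theorem tauFormOn_eq_tauForm [Normal ℚ E] (hE : ∀ a ∈ E, s a ∈ E)
    (hE' : ∀ a ∈ E, s.symm a ∈ E) (f : ↥(ratForm N E)) :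
    tauFormOn N E s hE hE' f = tauForm N E s f := rfl

/-- The twist fixes the rational functions. -/
theorem tauFormOn_ratEmb (hE : ∀ a ∈ E, s a ∈ E) (hE' : ∀ a ∈ E, s.symm a ∈ E)
    (x₀ : ↥(ratForm N E)) (hx₀ : (x₀ : FN N) ∈ Set.range (ratEmb N)) :
    tauFormOn N E s hE hE' x₀ = x₀ := by
  obtain ⟨g, hg⟩ := hx₀
  apply Subtype.ext
  rw [coe_tauFormOn, ← hg]
  exact arithmeticRingAut_ratEmb N s g

variable (A : ValuationSubring Kb)

/-- The twist maps the chart of a base function fixed by `s` into itself. -/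
theorem tauFormOn_mem_chart (hE : ∀ a ∈ E, s a ∈ E) (hE' : ∀ a ∈ E, s.symm a ∈ E)
    (hs : s ∈ A.decompositionSubgroup ℚ) (x₀ : ↥(ratForm N E))
    (hx₀ : arithmeticRingAut (modularFunctionFieldFull N) s (x₀ : FN N) = x₀)
    (y : ↥(ratForm N E)) :
    letI := H19.algComap (A.comap (algebraMap E Kb)) (ratForm N E)
    y ∈ H19.chart (↥(A.comap (algebraMap E Kb))) x₀ →
      tauFormOn N E s hE hE' y ∈ H19.chart (↥(A.comap (algebraMap E Kb))) x₀ := by
  let _ := H19.algComap (A.comap (algebraMap E Kb)) (ratForm N E)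
  intro hy
  have h := resF_mem_chart (s : Kb →+* Kb)
    ((arithmeticRingAut (modularFunctionFieldFull N) s : FN N ≃+* FN N) : FN N →+* FN N)
    (fun c => arithmeticRingAut_algebraMap (modularFunctionFieldFull N) s c) E
    (fun c hc => hE c hc) A
    (fun a ha => Fermat.Agent.S05.H63.apply_mem_of_mem_decompositionSubgroup hs ha)
    (fun f hf => arithmeticRingAut_mem_ratForm_of_stable N E s hE hf) x₀ hx₀ y hy
  exact h

/-- **(hσC)** the twist preserves the chart of a rational base function, in both directions. -/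
theorem tauFormOn_mem_chart_iff (hE : ∀ a ∈ E, s a ∈ E) (hE' : ∀ a ∈ E, s.symm a ∈ E)
    (hs : s ∈ A.decompositionSubgroup ℚ) (x₀ : ↥(ratForm N E))
    (hx₀ : (x₀ : FN N) ∈ Set.range (ratEmb N)) (y : ↥(ratForm N E)) :
    letI := H19.algComap (A.comap (algebraMap E Kb)) (ratForm N E)
    tauFormOn N E s hE hE' y ∈ H19.chart (↥(A.comap (algebraMap E Kb))) x₀ ↔
      y ∈ H19.chart (↥(A.comap (algebraMap E Kb))) x₀ := by
  let _ := H19.algComap (A.comap (algebraMap E Kb)) (ratForm N E)
  obtain ⟨g, hg⟩ := hx₀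
  have hfix : ∀ ρ : Kb ≃ₐ[ℚ] Kb,
      arithmeticRingAut (modularFunctionFieldFull N) ρ (x₀ : FN N) = x₀ := by
    intro ρ
    rw [← hg]
    exact arithmeticRingAut_ratEmb N ρ g
  have hE'' : ∀ a ∈ E, s.symm.symm a ∈ E := fun a ha => by simpa using hE a ha
  constructor
  · intro h
    have hs' : s.symm ∈ A.decompositionSubgroup ℚ := (A.decompositionSubgroup ℚ).inv_mem hs
    have h2 := tauFormOn_mem_chart N E s.symm A hE' hE'' hs' x₀ (hfix s.symm) _ h
    have h3 : tauFormOn N E s.symm hE' hE'' (tauFormOn N E s hE hE' y) = y :=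
      (tauFormOn N E s hE hE').symm_apply_apply y
    rwa [h3] at h2
  · exact tauFormOn_mem_chart N E s A hE hE' hs x₀ (hfix s) y

/-- The same for the inverse twist (the form in which `σ.symm` enters the Kronecker
congruences). -/
theorem tauFormOn_symm_mem_chart_iff (hE : ∀ a ∈ E, s a ∈ E) (hE' : ∀ a ∈ E, s.symm a ∈ E)
    (hs : s ∈ A.decompositionSubgroup ℚ) (x₀ : ↥(ratForm N E))
    (hx₀ : (x₀ : FN N) ∈ Set.range (ratEmb N)) (y : ↥(ratForm N E)) :
    letI := H19.algComap (A.comap (algebraMap E Kb)) (ratForm N E)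
    (tauFormOn N E s hE hE').symm y ∈ H19.chart (↥(A.comap (algebraMap E Kb))) x₀ ↔
      y ∈ H19.chart (↥(A.comap (algebraMap E Kb))) x₀ := by
  let _ := H19.algComap (A.comap (algebraMap E Kb)) (ratForm N E)
  have h := tauFormOn_mem_chart_iff N E s A hE hE' hs x₀ hx₀ ((tauFormOn N E s hE hE').symm y)
  rw [RingEquiv.apply_symm_apply] at h
  exact h.symm

end Twist

/-! ### Compatibility with the degeneracy maps, and the Kronecker congruences -/

section Maps

variable (M q : ℕ) [NeZero M] [NeZero q] (E : IntermediateField ℚ Kb) (s : Kb ≃ₐ[ℚ] Kb)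

/-- The Galois action commutes with `β`. -/
theorem arithmeticRingAut_heckeBetaBar' (f : FN M) :
    arithmeticRingAut (modularFunctionFieldFull (M * q)) s (heckeBetaBar Kb M q f)
      = heckeBetaBar Kb M q (arithmeticRingAut (modularFunctionFieldFull M) s f) := by
  apply Subtype.ext
  rw [coe_arithmeticRingAut_apply, coe_heckeBetaBar, coe_heckeBetaBar,
    coe_arithmeticRingAut_apply]
  exact ModularCurve.coeffMap_qExpand (s : Kb →+* Kb) q _

/-- The twist commutes with `α`. -/
theorem tauFormOn_alphaForm (hE : ∀ a ∈ E, s a ∈ E) (hE' : ∀ a ∈ E, s.symm a ∈ E)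
    (f : ↥(ratForm M E)) :
    tauFormOn (M * q) E s hE hE' (alphaForm M q E f) =
      alphaForm M q E (tauFormOn M E s hE hE' f) :=
  Subtype.ext (arithmeticRingAut_heckeAlphaBar M q s (f : FN M))

/-- The twist commutes with `β`. -/
theorem tauFormOn_betaForm (hE : ∀ a ∈ E, s a ∈ E) (hE' : ∀ a ∈ E, s.symm a ∈ E)
    (f : ↥(ratForm M E)) :
    tauFormOn (M * q) E s hE hE' (betaForm M q E f) =
      betaForm M q E (tauFormOn M E s hE hE' f) :=
  Subtype.ext (arithmeticRingAut_heckeBetaBar' M q s (f : FN M))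

end Maps

/-! ### The Kronecker congruences on the `E`-forms -/

section Kron

open Fermat.Agent.S34.H64

variable {M q : ℕ} [NeZero M] [hqF : Fact q.Prime] {hqM : ¬ q ∣ M} {A : ValuationSubring Kb}
  {hA : A.LiesOverPrime q} {O₁ : ValuationSubring (FN (M * q))}
  {w : FN (M * q) ≃+* FN (M * q)}

/-- **Kronecker on the first Gauss ring, on the `E`-forms**: `β g ≡ α (σ⁻¹ g) ^ q` modulo
`m(O₁)`, for `σ` the twist by a Frobenius `s` at `A`. -/
theorem kron1_ratForm (hTG : TwoGauss M q hqM A hA O₁ w) (E : IntermediateField ℚ Kb)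
    (s : Kb ≃ₐ[ℚ] Kb) (hsF : A.IsFrobeniusAt s q) (hE : ∀ a ∈ E, s a ∈ E)
    (hE' : ∀ a ∈ E, s.symm a ∈ E) (g : ↥(ratForm M E))
    (hg : g ∈ (H66.gaussO A M hA hqM).comap (algebraMap ↥(ratForm M E) (FN M))) :
    haveI : NeZero q := ⟨hqF.out.ne_zero⟩
    betaForm M q E g - alphaForm M q E ((tauFormOn M E s hE hE').symm g) ^ q ∈
      (O₁.comap (algebraMap ↥(ratForm (M * q) E) (FN (M * q)))).nonunits := by
  haveI : NeZero q := ⟨hqF.out.ne_zero⟩
  rw [← mem_nonunits_iff_of_mem_iff (algebraMap ↥(ratForm (M * q) E) (FN (M * q)))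
    (O₁.comap (algebraMap ↥(ratForm (M * q) E) (FN (M * q)))) O₁ (fun f => Iff.rfl)]
  exact hTG.kronecker s hsF (g : FN M) hg

/-- **Kronecker on the second Gauss ring, on the `E`-forms**: `α f ≡ β (σ⁻¹ f) ^ q` modulo
`m(O₂)`, `O₂ = w⁻¹ O₁`. -/
theorem kron2_ratForm (hTG : TwoGauss M q hqM A hA O₁ w) (E : IntermediateField ℚ Kb)
    (s : Kb ≃ₐ[ℚ] Kb) (hsF : A.IsFrobeniusAt s q) (hE : ∀ a ∈ E, s a ∈ E)
    (hE' : ∀ a ∈ E, s.symm a ∈ E) (f : ↥(ratForm M E))
    (hf : f ∈ (H66.gaussO A M hA hqM).comap (algebraMap ↥(ratForm M E) (FN M))) :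
    haveI : NeZero q := ⟨hqF.out.ne_zero⟩
    alphaForm M q E f - betaForm M q E ((tauFormOn M E s hE hE').symm f) ^ q ∈
      ((gaussTwo M q O₁ w).comap (algebraMap ↥(ratForm (M * q) E) (FN (M * q)))).nonunits := by
  haveI : NeZero q := ⟨hqF.out.ne_zero⟩
  rw [← mem_nonunits_iff_of_mem_iff (algebraMap ↥(ratForm (M * q) E) (FN (M * q)))
    ((gaussTwo M q O₁ w).comap (algebraMap ↥(ratForm (M * q) E) (FN (M * q))))
    (gaussTwo M q O₁ w) (fun f => Iff.rfl)]
  exact hTG.kronecker₂ s hsF (f : FN M) hf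

end Kron

/-! ### The Frobenius twist over the inertia field -/

section Frob

variable (N : ℕ) (A : ValuationSubring Kb) (K : IntermediateField ℚ Kb) [FiniteDimensional ℚ K]
  [Normal ℚ K] (s : Kb ≃ₐ[ℚ] Kb)

/-- `s E ⊆ E` for `E` the inertia field and `s` in the decomposition group. -/
theorem inertiaField_stable (hs : s ∈ A.decompositionSubgroup ℚ) :
    ∀ a ∈ inertiaField A K, s a ∈ inertiaField A K :=
  fun _ ha => apply_mem_inertiaField A K hs ha

/-- `s⁻¹ E ⊆ E` for `E` the inertia field and `s` in the decomposition group. -/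
theorem inertiaField_stable_symm (hs : s ∈ A.decompositionSubgroup ℚ) :
    ∀ a ∈ inertiaField A K, s.symm a ∈ inertiaField A K :=
  fun _ ha => apply_mem_inertiaField A K ((A.decompositionSubgroup ℚ).inv_mem hs) ha

/-- **The twist of the `E`-form of `F_N` by an element of the decomposition group**, `E` the
inertia field of `A` in `K` (for a Frobenius `s` at `A`: the Frobenius twist). -/
def frobForm (hs : s ∈ A.decompositionSubgroup ℚ) :
    ↥(ratForm N (inertiaField A K)) ≃+* ↥(ratForm N (inertiaField A K)) :=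
  tauFormOn N (inertiaField A K) s (inertiaField_stable A K s hs)
    (inertiaField_stable_symm A K s hs)

@[simp] theorem coe_frobForm (hs : s ∈ A.decompositionSubgroup ℚ)
    (f : ↥(ratForm N (inertiaField A K))) :
    ((frobForm N A K s hs f : ↥(ratForm N (inertiaField A K))) : FN N)
      = arithmeticRingAut (modularFunctionFieldFull N) s (f : FN N) := rfl

@[simp] theorem coe_frobForm_symm (hs : s ∈ A.decompositionSubgroup ℚ)
    (f : ↥(ratForm N (inertiaField A K))) :
    (((frobForm N A K s hs).symm f : ↥(ratForm N (inertiaField A K))) : FN N)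
      = arithmeticRingAut (modularFunctionFieldFull N) s.symm (f : FN N) := rfl

end Frob

end Fermat.Agent.S34.H34
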