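/-
Program B' (S34), helper34: the σ-BLOCK of the `ratForm` instantiation of
`H68.crossing_regular_of_dsetup` (M6b, crossing points) over a base field `E` stable under a
Frobenius `s` at `A` (in the application `E = H92.inertiaField A K₀`, the unramified base).

With `A₀ = A ∩ E`, `K = ratForm M E`, `L = ratForm (M * q) E` (an algebra along `α`:
`H61.algAlpha`), `x` a rational base function, `V₁ = O₁ ∩ L`, `V₂ = O₂ ∩ L`:

* `tauFormOn_algebraMap`, `tauFormOn_symm_algebraMap` : the twist maps the constants of `A ∩ E`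
  to constants of `A ∩ E` (`hσA`, `hσA'`);
* `frob_supply` : for `σ = tauFormOn M E s`: `hσA`, `hσA'`, `hσx`, `kron1`, `kron2` in the binder
  shapes of `H68.crossing_regular_of_dsetup`;
* `exists_frob_supply` : the same over the inertia field, as an existential statement
  (`σ = frobForm M A K₀ s`, `s` any Frobenius at `A`).
-/
import Fermat.Agent.S34.H34.FrobForm
import Fermat.Agent.S54.H94.Frobenius

set_option autoImplicit false
set_option linter.unusedSectionVars false
set_option linter.style.haveILetI false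

open IntermediateField Polynomial ModularCurve AlgebraicCurve

noncomputable section

namespace Fermat.Agent.S34.H34

open Fermat.Agent.S18 Fermat.Agent.S18.H74 Fermat.Agent.S18.H19 Fermat.Agent.S34.H19
  Fermat.Agent.S34.H61 Fermat.Agent.S34.H64 Fermat.Agent.S34.H92

section Const

variable (N : ℕ) (E : IntermediateField ℚ Kb) (s : Kb ≃ₐ[ℚ] Kb) (A : ValuationSubring Kb)

/-- The twist maps the constants of `A ∩ E` to constants of `A ∩ E`. -/
theorem tauFormOn_algebraMap (hE : ∀ a ∈ E, s a ∈ E) (hE' : ∀ a ∈ E, s.symm a ∈ E)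
    (hs : s ∈ A.decompositionSubgroup ℚ) (a : ↥(A.comap (algebraMap E Kb))) :
    letI := algComap (A.comap (algebraMap E Kb)) (ratForm N E)
    ∃ a' : ↥(A.comap (algebraMap E Kb)),
      tauFormOn N E s hE hE' (algebraMap ↥(A.comap (algebraMap E Kb)) ↥(ratForm N E) a)
        = algebraMap ↥(A.comap (algebraMap E Kb)) ↥(ratForm N E) a' := by
  let _ := algComap (A.comap (algebraMap E Kb)) (ratForm N E)
  have h1 : s ((a : E) : Kb) ∈ E := hE _ (a : E).2
  have h2 : s ((a : E) : Kb) ∈ A :=
    Fermat.Agent.S05.H63.apply_mem_of_mem_decompositionSubgroup hs a.2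
  refine ⟨⟨⟨s ((a : E) : Kb), h1⟩, h2⟩, ?_⟩
  apply Subtype.ext
  rw [coe_tauFormOn]
  exact arithmeticRingAut_algebraMap (modularFunctionFieldFull N) s ((a : E) : Kb)

/-- The inverse twist maps the constants of `A ∩ E` to constants of `A ∩ E`. -/
theorem tauFormOn_symm_algebraMap (hE : ∀ a ∈ E, s a ∈ E) (hE' : ∀ a ∈ E, s.symm a ∈ E)
    (hs : s ∈ A.decompositionSubgroup ℚ) (a : ↥(A.comap (algebraMap E Kb))) :
    letI := algComap (A.comap (algebraMap E Kb)) (ratForm N E)
    ∃ a' : ↥(A.comap (algebraMap E Kb)),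
      (tauFormOn N E s hE hE').symm (algebraMap ↥(A.comap (algebraMap E Kb)) ↥(ratForm N E) a)
        = algebraMap ↥(A.comap (algebraMap E Kb)) ↥(ratForm N E) a' := by
  have hs' : s.symm ∈ A.decompositionSubgroup ℚ := (A.decompositionSubgroup ℚ).inv_mem hs
  exact tauFormOn_algebraMap N E s.symm A hE' (fun a ha => by simpa using hE a ha) hs' a

end Const

section Supply

variable {M q : ℕ} [NeZero M] [hqF : Fact q.Prime] {hqM : ¬ q ∣ M} {A : ValuationSubring Kb}
  {hA : A.LiesOverPrime q} {O₁ : ValuationSubring (FN (M * q))}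
  {w : FN (M * q) ≃+* FN (M * q)}

/-- **The σ-block of the crossing-point package on the `E`-forms**: for `σ = tauFormOn M E s`,
`s` a Frobenius at `A` preserving `E`, the hypotheses `hσA`, `hσA'`, `hσx`, `kron1`, `kron2` of
`H68.crossing_regular_of_dsetup` (with `K = ratForm M E`, `L = ratForm (M * q) E` an algebra
along `α`, `β = betaForm`, `V₁ = O₁ ∩ L`, `V₂ = O₂ ∩ L`). -/
theorem frob_supply (hTG : TwoGauss M q hqM A hA O₁ w) (E : IntermediateField ℚ Kb)
    (s : Kb ≃ₐ[ℚ] Kb) (hsF : A.IsFrobeniusAt s q) (hE : ∀ a ∈ E, s a ∈ E)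
    (hE' : ∀ a ∈ E, s.symm a ∈ E) (x : ↥(ratForm M E))
    (hx : (x : FN M) ∈ Set.range (ratEmb M))
    (hle : letI := algComap (A.comap (algebraMap E Kb)) (ratForm M E)
      ∀ g ∈ chart ↥(A.comap (algebraMap E Kb)) x,
        g ∈ (H66.gaussO A M hA hqM).comap (algebraMap ↥(ratForm M E) (FN M))) :
    haveI : NeZero q := ⟨hqF.out.ne_zero⟩
    letI := algComap (A.comap (algebraMap E Kb)) (ratForm M E)
    letI := algAlpha M q E
    (∀ a : ↥(A.comap (algebraMap E Kb)), ∃ a' : ↥(A.comap (algebraMap E Kb)),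
      tauFormOn M E s hE hE' (algebraMap ↥(A.comap (algebraMap E Kb)) ↥(ratForm M E) a)
        = algebraMap ↥(A.comap (algebraMap E Kb)) ↥(ratForm M E) a') ∧
    (∀ a : ↥(A.comap (algebraMap E Kb)), ∃ a' : ↥(A.comap (algebraMap E Kb)),
      (tauFormOn M E s hE hE').symm (algebraMap ↥(A.comap (algebraMap E Kb)) ↥(ratForm M E) a)
        = algebraMap ↥(A.comap (algebraMap E Kb)) ↥(ratForm M E) a') ∧
    tauFormOn M E s hE hE' x = x ∧
    (∀ g ∈ chart ↥(A.comap (algebraMap E Kb)) x,
      betaForm M q E g -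
          algebraMap ↥(ratForm M E) ↥(ratForm (M * q) E) ((tauFormOn M E s hE hE').symm g) ^ q ∈
        (O₁.comap (algebraMap ↥(ratForm (M * q) E) (FN (M * q)))).nonunits) ∧
    (∀ f ∈ chart ↥(A.comap (algebraMap E Kb)) x,
      algebraMap ↥(ratForm M E) ↥(ratForm (M * q) E) f -
          betaForm M q E ((tauFormOn M E s hE hE').symm f) ^ q ∈
        ((gaussTwo M q O₁ w).comap
          (algebraMap ↥(ratForm (M * q) E) (FN (M * q)))).nonunits) := by
  haveI : NeZero q := ⟨hqF.out.ne_zero⟩
  let _ := algComap (A.comap (algebraMap E Kb)) (ratForm M E)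
  letI := algAlpha M q E
  have hs : s ∈ A.decompositionSubgroup ℚ := hsF.mem_decompositionSubgroup
  refine ⟨fun a => tauFormOn_algebraMap M E s A hE hE' hs a,
    fun a => tauFormOn_symm_algebraMap M E s A hE hE' hs a,
    tauFormOn_ratEmb M E s hE hE' x hx, fun g hg => ?_, fun f hf => ?_⟩
  · exact kron1_ratForm hTG E s hsF hE hE' g (hle g hg)
  · exact kron2_ratForm hTG E s hsF hE hE' f (hle f hf)

/-- **The σ-block over the inertia field**: a Frobenius twist `σ` of `K = ratForm M E`,
`E = inertiaField A K₀`, with `hσA`, `hσA'`, `hσx`, `kron1`, `kron2`. -/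
theorem exists_frob_supply (hTG : TwoGauss M q hqM A hA O₁ w) (K₀ : IntermediateField ℚ Kb)
    [FiniteDimensional ℚ K₀] [Normal ℚ K₀] (x : ↥(ratForm M (inertiaField A K₀)))
    (hx : (x : FN M) ∈ Set.range (ratEmb M))
    (hle : letI := algComap (A.comap (algebraMap (inertiaField A K₀) Kb)) (ratForm M (inertiaField A K₀))
      ∀ g ∈ chart ↥(A.comap (algebraMap (inertiaField A K₀) Kb)) x,
        g ∈ (H66.gaussO A M hA hqM).comap
          (algebraMap ↥(ratForm M (inertiaField A K₀)) (FN M))) :
    haveI : NeZero q := ⟨hqF.out.ne_zero⟩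
    letI := algComap (A.comap (algebraMap (inertiaField A K₀) Kb)) (ratForm M (inertiaField A K₀))
    letI := algAlpha M q (inertiaField A K₀)
    ∃ σ : ↥(ratForm M (inertiaField A K₀)) ≃+* ↥(ratForm M (inertiaField A K₀)),
      (∀ a : ↥(A.comap (algebraMap (inertiaField A K₀) Kb)),
        ∃ a' : ↥(A.comap (algebraMap (inertiaField A K₀) Kb)),
          σ (algebraMap ↥(A.comap (algebraMap (inertiaField A K₀) Kb))
              ↥(ratForm M (inertiaField A K₀)) a)
            = algebraMap ↥(A.comap (algebraMap (inertiaField A K₀) Kb))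
              ↥(ratForm M (inertiaField A K₀)) a') ∧
      (∀ a : ↥(A.comap (algebraMap (inertiaField A K₀) Kb)),
        ∃ a' : ↥(A.comap (algebraMap (inertiaField A K₀) Kb)),
          σ.symm (algebraMap ↥(A.comap (algebraMap (inertiaField A K₀) Kb))
              ↥(ratForm M (inertiaField A K₀)) a)
            = algebraMap ↥(A.comap (algebraMap (inertiaField A K₀) Kb))
              ↥(ratForm M (inertiaField A K₀)) a') ∧
      σ x = x ∧
      (∀ g ∈ chart ↥(A.comap (algebraMap (inertiaField A K₀) Kb)) x,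
        betaForm M q (inertiaField A K₀) g -
            algebraMap ↥(ratForm M (inertiaField A K₀)) ↥(ratForm (M * q) (inertiaField A K₀))
              (σ.symm g) ^ q ∈
          (O₁.comap (algebraMap ↥(ratForm (M * q) (inertiaField A K₀)) (FN (M * q)))).nonunits) ∧
      (∀ f ∈ chart ↥(A.comap (algebraMap (inertiaField A K₀) Kb)) x,
        algebraMap ↥(ratForm M (inertiaField A K₀)) ↥(ratForm (M * q) (inertiaField A K₀)) f -
            betaForm M q (inertiaField A K₀) (σ.symm f) ^ q ∈
          ((gaussTwo M q O₁ w).comap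
            (algebraMap ↥(ratForm (M * q) (inertiaField A K₀)) (FN (M * q)))).nonunits) := by
  haveI : NeZero q := ⟨hqF.out.ne_zero⟩
  obtain ⟨s, hsF⟩ := Fermat.Agent.S54.H94.exists_isFrobeniusAt_of_liesOverPrime A
    (Fact.out : q.Prime) hA
  have hs : s ∈ A.decompositionSubgroup ℚ := hsF.mem_decompositionSubgroup
  exact ⟨frobForm M A K₀ s hs,
    frob_supply hTG (inertiaField A K₀) s hsF (inertiaField_stable A K₀ s hs)
      (inertiaField_stable_symm A K₀ s hs) x hx hle⟩

end Supply

end Fermat.Agent.S34.H34
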